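/-
Program C (S55), package C8, leaf (CYCREC) = `H29.CycloRecStatement` (helper6): SPEC.

Reciprocity for a cyclic layer `E/k` of `p`-power degree inside `F = k(ζ_m)` is assembled
(`RecCyclo.lean`, helper6) from the four leaves below and helper5's product formula
`H5.prodFormula_sq`:

* `LocNormStatement`   (R-LOCNORM): a cyclic class `cycClass σ a`, `a ∈ kˣ`, with vanishing local
  invariant at an embedding `τ'` of `E` is a local norm at `τ'`;
* `WeakApproxNormStatement` (R-WA): an element of `kˣ` which is a local norm at every embedding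
  above the primes dividing `m` becomes a one-unit at all those embeddings after division by a
  global norm;
* `FrobCycloStatement` (R-FROB): at an embedding `τ'` of `E` above a prime `q ∤ m` the local
  extension is unramified, and its Frobenius is the restriction of an element of `Gal(F/k)`
  raising the `m`-th roots of unity to the power `#k_v`;
* `UnrFormulaStatement` (R-UNR): the unramified formula
  `linv_{τ'} (cycClass σ a) = i · ord_v(a) / [E:k]` when the Frobenius at `τ'` is `σ ^ i`.
-/
import Fermat.Agent.S55.H29.C8Rec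

set_option autoImplicit false

open CategoryTheory groupCohomology Rep

noncomputable section

namespace Fermat.Agent.S55.H6

open Fermat.Agent.S55.H88 Fermat.Agent.S55.H66

/-- **(R-LOCNORM)** If the local invariant at the embedding `τ'` of the cyclic class
`cycClass σ a` (`σ` a generator of `Gal(E/k)`, `a ∈ kˣ`) vanishes, then `a` is a norm from
`E_w = locExt q k τ'` to `k_v = locBase q k τ'`. -/
def LocNormStatement : Prop :=
  ∀ (k E : Type) [Field k] [NumberField k] [Field E] [NumberField E] [Algebra k E]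
    [IsGalois k E] (σ : E ≃ₐ[k] E), (∀ s : E ≃ₐ[k] E, s ∈ Subgroup.zpowers σ) →
    ∀ (q : ℕ) [Fact q.Prime] (τ' : E →+* PadicAlgCl q) (a : kˣ),
      linvAt q k τ' (cycClass (Rep.ofAlgebraAutOnUnits k E) σ (H29.unitOfBase k E a)) = 0 →
      ∃ β : locExt q k τ',
        Algebra.norm (locBase q k τ') β = locEmb q (τ'.comp (algebraMap k E)) (a : k)

/-- **(R-WA)** Weak approximation for norms: if `a₀ ∈ kˣ` is a local norm at every embedding of
`E` into `PadicAlgCl q` for every prime `q ∣ m`, then there is `b ∈ Eˣ` such that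
`a₀ / N_{E/k}(b)` is a one-unit at every embedding of `k` into `PadicAlgCl q`, `q ∣ m`. -/
def WeakApproxNormStatement : Prop :=
  ∀ (k E : Type) [Field k] [NumberField k] [Field E] [NumberField E] [Algebra k E]
    [IsGalois k E] (m : ℕ), m ≠ 0 → ∀ a₀ : kˣ,
    (∀ (q : ℕ) [Fact q.Prime], q ∣ m → ∀ τ' : E →+* PadicAlgCl q,
      ∃ β : locExt q k τ',
        Algebra.norm (locBase q k τ') β = locEmb q (τ'.comp (algebraMap k E)) (a₀ : k)) →
    ∃ b : Eˣ, ∀ (q : ℕ) [Fact q.Prime], q ∣ m → ∀ τ : k →+* PadicAlgCl q,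
      ‖τ ((a₀ : k) / Algebra.norm k (b : E)) - 1‖ < 1

/-- **(R-FROB)** `E ⊆ F = k(ζ_m)`, `q ∤ m`, `τ'` an embedding of `E` into `PadicAlgCl q`: the local
extension `E_w / k_v` is unramified and has a Frobenius `φ` whose image in `Gal(E/k)` is the
restriction of some `s ∈ Gal(F/k)` with `s ζ = ζ ^ #k_v` for all `m`-th roots of unity `ζ`. -/
def FrobCycloStatement : Prop :=
  ∀ (k E F : Type) [Field k] [NumberField k] [Field E] [NumberField E] [Field F]
    [NumberField F] [Algebra k E] [Algebra k F] [Algebra E F] [IsScalarTower k E F]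
    [IsGalois k E] (m : ℕ) [IsCyclotomicExtension {m} k F] (q : ℕ) [Fact q.Prime], ¬ q ∣ m →
    ∀ τ' : E →+* PadicAlgCl q,
      IsUnram q (locBase q k τ') (locExt q k τ') ∧
      ∃ (φ : locExt q k τ' ≃ₐ[locBase q k τ'] locExt q k τ') (s : F ≃ₐ[k] F),
        IsFrob q (locExt q k τ') φ ∧
        (∀ ζ : F, ζ ^ m = 1 → s ζ = ζ ^ resCard q (locBase q k τ')) ∧
        AlgEquiv.restrictNormalHom E s = locGalToGlobal q k τ' φ

/-- **(R-UNR)** The unramified formula for cyclic classes: if `E_w / k_v` is unramified with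
Frobenius `φ`, and the image of `φ` in `Gal(E/k) = ⟨σ⟩` is `σ ^ i`, then
`linv_{τ'} (cycClass σ a) = i · ord_v(a) / #⟨σ⟩` for `a ∈ kˣ`. -/
def UnrFormulaStatement : Prop :=
  ∀ (k E : Type) [Field k] [NumberField k] [Field E] [NumberField E] [Algebra k E]
    [IsGalois k E] (σ : E ≃ₐ[k] E), (∀ s : E ≃ₐ[k] E, s ∈ Subgroup.zpowers σ) →
    ∀ (q : ℕ) [Fact q.Prime] (τ' : E →+* PadicAlgCl q),
      IsUnram q (locBase q k τ') (locExt q k τ') →
      ∀ φ : locExt q k τ' ≃ₐ[locBase q k τ'] locExt q k τ', IsFrob q (locExt q k τ') φ →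
      ∀ i : ℕ, locGalToGlobal q k τ' φ = σ ^ i → ∀ a : kˣ,
        linvAt q k τ' (cycClass (Rep.ofAlgebraAutOnUnits k E) σ (H29.unitOfBase k E a)) =
          (((((i : ℤ) * ord q (locEmb q (τ'.comp (algebraMap k E)) (a : k)) : ℤ) : ℚ) /
            (orderOf σ : ℚ) : ℚ) : QZ)

end Fermat.Agent.S55.H6
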