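/-
Program C (S55), package C8, leaf (CYCREC) (helper6): the group-theoretic core of the assembly.

`qz_finsum_eq_zero` : `σ` of odd order in `G`, `res : Γ →* G`, `χ : Γ ↪ X` (`X` commutative);
for every index `v` an exponent `o v : ℤ` (finitely many nonzero), and, when `o v ≠ 0`, an
element `s v : Γ` with `res (s v) = σ ^ i v` and `χ (s v) = c v`.  If
`(∏ᶠ v, c v ^ o v) ^ 2 = 1`, then `∑ᶠ v, (i v * o v) / #⟨σ⟩ = 0` in `ℚ/ℤ`.
-/
import Mathlib

set_option autoImplicit false

noncomputable section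

namespace Fermat.Agent.S55.H6

/-- Noncommutative bookkeeping: an element of `Γ` with prescribed images. -/
theorem exists_prod_frob {V G Γ X : Type} [Group G] [Group Γ] [CommGroup X] (σ : G)
    (res : Γ →* G) (χ : Γ →* X) (o : V → ℤ) (i : V → ℕ) (s : V → Γ) (c : V → X)
    (hres : ∀ v, o v ≠ 0 → res (s v) = σ ^ i v) (hc : ∀ v, o v ≠ 0 → χ (s v) = c v)
    (S : Finset V) :
    ∃ P : Γ, χ P = ∏ v ∈ S, c v ^ o v ∧ res P = σ ^ (∑ v ∈ S, (i v : ℤ) * o v) := by
  classical
  induction S using Finset.induction_on with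
  | empty => exact ⟨1, by simp, by simp⟩
  | insert v S hv ih =>
    obtain ⟨P, hP1, hP2⟩ := ih
    by_cases h0 : o v = 0
    · refine ⟨P, ?_, ?_⟩
      · rw [Finset.prod_insert hv, h0, zpow_zero, one_mul, hP1]
      · rw [Finset.sum_insert hv, h0, mul_zero, zero_add, hP2]
    · refine ⟨s v ^ o v * P, ?_, ?_⟩
      · rw [Finset.prod_insert hv, map_mul, map_zpow, hc v h0, hP1]
      · rw [Finset.sum_insert hv, map_mul, map_zpow, hres v h0, hP2, zpow_add, zpow_mul,
          zpow_natCast]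

/-- The arithmetic core of reciprocity in cyclic cyclotomic layers. -/
theorem qz_finsum_eq_zero {V G Γ X : Type} [Group G] [Group Γ] [CommGroup X] (σ : G)
    (hodd : Odd (orderOf σ)) (res : Γ →* G) (χ : Γ →* X) (hχ : Function.Injective χ)
    (o : V → ℤ) (ho : (Function.support o).Finite) (i : V → ℕ) (s : V → Γ) (c : V → X)
    (hres : ∀ v, o v ≠ 0 → res (s v) = σ ^ i v) (hc : ∀ v, o v ≠ 0 → χ (s v) = c v)
    (hprod : (∏ᶠ v, c v ^ o v) ^ 2 = 1) :
    ∑ᶠ v, (((((i v : ℤ) * o v : ℤ) : ℚ) / (orderOf σ : ℚ) : ℚ) : AddCircle (1 : ℚ)) = 0 := by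
  classical
  obtain ⟨P, hP1, hP2⟩ := exists_prod_frob σ res χ o i s c hres hc ho.toFinset
  set T : ℤ := ∑ v ∈ ho.toFinset, (i v : ℤ) * o v with hT
  have hN0 : orderOf σ ≠ 0 := by
    rintro h
    rw [h] at hodd
    exact absurd hodd (by decide)
  -- the finite product is the product over the support
  have hfin : ∏ᶠ v, c v ^ o v = ∏ v ∈ ho.toFinset, c v ^ o v := by
    refine finprod_eq_prod_of_mulSupport_subset _ fun v hv => ?_
    rw [Set.Finite.coe_toFinset, Function.mem_support]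
    intro h0
    apply hv
    show c v ^ o v = 1
    rw [h0, zpow_zero]
  have hP : P ^ 2 = 1 := by
    apply hχ
    rw [map_pow, hP1, ← hfin, hprod, map_one]
  have hσ2 : σ ^ (T * 2) = 1 := by
    have h := congrArg res hP
    rw [map_pow, hP2, map_one] at h
    rw [zpow_mul]
    exact_mod_cast h
  have hdvd : (orderOf σ : ℤ) ∣ T := by
    have h1 : (orderOf σ : ℤ) ∣ T * 2 := orderOf_dvd_iff_zpow_eq_one.2 hσ2
    have hcop : IsCoprime (orderOf σ : ℤ) 2 := by
      have : Nat.Coprime (orderOf σ) 2 := Nat.coprime_two_right.mpr hodd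
      exact_mod_cast Nat.isCoprime_iff_coprime.2 this
    exact hcop.dvd_of_dvd_mul_right h1
  obtain ⟨t, ht⟩ := hdvd
  -- the finite sum
  have hsupp : (Function.support fun v =>
      (((((i v : ℤ) * o v : ℤ) : ℚ) / (orderOf σ : ℚ) : ℚ) : AddCircle (1 : ℚ))) ⊆
      ↑ho.toFinset := by
    intro v hv
    rw [Set.Finite.coe_toFinset, Function.mem_support]
    intro h0
    apply hv
    show (((((i v : ℤ) * o v : ℤ) : ℚ) / (orderOf σ : ℚ) : ℚ) : AddCircle (1 : ℚ)) = 0
    rw [h0, mul_zero, Int.cast_zero, zero_div]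
    rfl
  rw [finsum_eq_sum_of_support_subset _ hsupp]
  have hcoe : ∀ x : ℚ, ((x : ℚ) : AddCircle (1 : ℚ)) =
      QuotientAddGroup.mk' (AddSubgroup.zmultiples (1 : ℚ)) x := fun _ => rfl
  simp only [hcoe]
  rw [← map_sum, ← hcoe, AddCircle.coe_eq_zero_iff]
  refine ⟨t, ?_⟩
  rw [← Finset.sum_div, ← Int.cast_sum, ← hT, ht]
  have hN0' : (orderOf σ : ℚ) ≠ 0 := by exact_mod_cast hN0
  push_cast
  field_simp
  simp

end Fermat.Agent.S55.H6
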