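/-
Program C (S55), package C8, leaf (CYCREC) = `H29.CycloRecStatement` (helper6): ASSEMBLY.

`cycloRec_of` : `LocNormStatement → WeakApproxNormStatement → FrobCycloStatement →
UnrFormulaStatement → ∀ p, H29.CycloRecStatement p`.

Proof.  `γ = cycClass σ a₀` (CY2); `a₀` is a local norm above the primes dividing `m` (R-LOCNORM,
LINV-INDEP); after division by a global norm `a` is a one-unit there (R-WA) and
`γ = cycClass σ a` (CY3, CY4).  At `v ∤ m`, `linv_v γ = i_v · ord_v(a) / N` with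
`σ ^ i_v = s_v|E`, `s_v ζ = ζ ^ #k_v` (R-FROB, R-UNR); at `v ∣ m` both sides vanish.  The
cyclotomic character sends `∏ s_v ^ ord_v(a)` to `∏ (#k_v mod m) ^ ord_v(a)`, whose square is `1`
by the product formula (`H5.prodFormula_sq`); hence `N ∣ ∑ i_v ord_v(a)` (`N` odd).
-/
import Fermat.Agent.S55.H6.RecCycloSpec
import Fermat.Agent.S55.H6.RecCycloCore
import Fermat.Agent.S55.H5.ProdFormula
import Fermat.Agent.S55.H37.PrimeHasse
import Fermat.Agent.S55.H37.CycCocycle
import Fermat.Agent.S55.H20.LinvIndep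
import Fermat.Agent.S55.H16.CycLoc
import Fermat.Agent.S55.H72.CycGlob

set_option autoImplicit false
set_option linter.unusedSectionVars false
set_option linter.style.haveILetI false

open CategoryTheory groupCohomology Rep

noncomputable section

namespace Fermat.Agent.S55.H6

open Fermat.Agent.S55.H88 Fermat.Agent.S55.H66

attribute [local instance] factOfPrimes

section Pieces

variable (k E : Type) [Field k] [NumberField k] [Field E] [NumberField E] [Algebra k E]
  [IsGalois k E]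

/-- The local invariant at an arbitrary embedding vanishes as soon as the invariants at the
chosen places of the same residue characteristic do (LINV-INDEP). -/
theorem linvAt_eq_zero_of_linv [FiniteDimensional k E] (q : ℕ) [hq : Fact q.Prime]
    (τ' : E →+* PadicAlgCl q) (γ : groupCohomology (Rep.ofAlgebraAutOnUnits k E) 2)
    (h : ∀ v : FinPlace k, (v.1 : ℕ) = q → (layerOf k E).linv v γ = 0) :
    linvAt q k τ' γ = 0 := by
  set v : FinPlace k := ⟨⟨q, hq.out⟩, placeOf q (τ'.comp (algebraMap k E))⟩ with hv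
  have hrel : (placeSetoid q k).r (τ'.comp (algebraMap k E))
      ((v.ext E).comp (algebraMap k E)) := by
    rw [v.ext_comp E]
    exact (placeSetoid q k).symm (Quotient.mk_out (s := placeSetoid q k) _)
  have h1 := H20.linvIndep k E q τ' (v.ext E) hrel
  rw [h1]
  exact h v rfl

/-- A unit at `τ` has order zero. -/
theorem ord_locEmb_eq_zero (q : ℕ) [Fact q.Prime] (τ : k →+* PadicAlgCl q) (a : k)
    (h : ‖τ a‖ = 1) : ord q (locEmb q τ a) = 0 := by
  haveI := locFieldFiniteStatement_holds q k τ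
  exact H5.ord_eq_zero_of_nrm_eq_one q (locField q τ) _ h

/-- Division by a global norm does not change the cyclic class. -/
theorem cycClass_unitOfBase_div_norm [FiniteDimensional k E] (σ : E ≃ₐ[k] E)
    (hσ : ∀ s : E ≃ₐ[k] E, s ∈ Subgroup.zpowers σ) (a₀ : kˣ) (b : Eˣ) :
    cycClass (Rep.ofAlgebraAutOnUnits k E) σ
        (H29.unitOfBase k E (a₀ / Units.map (Algebra.norm k : E →* k) b)) =
      cycClass (Rep.ofAlgebraAutOnUnits k E) σ (H29.unitOfBase k E a₀) := by
  classical
  set nb : kˣ := Units.map (Algebra.norm k : E →* k) b with hnb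
  have hsplit : H29.unitOfBase k E a₀ =
      H29.unitOfBase k E (a₀ / nb) + H29.unitOfBase k E nb := by
    apply H72.unitOf_injective
    rw [H72.unitOf_add]
    apply Units.ext
    show algebraMap k E (a₀ : k) = algebraMap k E ((a₀ / nb : kˣ) : k) * algebraMap k E (nb : k)
    rw [← map_mul, ← Units.val_mul, div_mul_cancel]
  have hzero : cycClass (Rep.ofAlgebraAutOnUnits k E) σ (H29.unitOfBase k E nb) = 0 := by
    refine (H37.leafCycZero ℤ (E ≃ₐ[k] E) (Rep.ofAlgebraAutOnUnits k E) σ hσ _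
      (H16.unitOfBase_invariant k E nb)).2 ⟨Rep.toAdditive.symm (Additive.ofMul b), ?_⟩
    apply H72.unitOf_injective
    rw [H72.unitOf_sum]
    apply Units.ext
    rw [Units.coe_prod]
    show ∏ s : E ≃ₐ[k] E, s (b : E) = algebraMap k E (Algebra.norm k (b : E))
    rw [← Algebra.norm_eq_prod_automorphisms]
  rw [hsplit, H37.leafCycAdd ℤ (E ≃ₐ[k] E) (Rep.ofAlgebraAutOnUnits k E) σ hσ _ _
    (H16.unitOfBase_invariant k E _) (H16.unitOfBase_invariant k E _), hzero, add_zero]

end Pieces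

/-- **Leaf (CYCREC)** from the four leaves of `RecCycloSpec`. -/
theorem cycloRec_of (hLN : LocNormStatement) (hWA : WeakApproxNormStatement)
    (hFr : FrobCycloStatement) (hUF : UnrFormulaStatement) (p : ℕ) :
    H29.CycloRecStatement p := by
  intro hp hp2 k E F _ _ _ _ _ _ _ _ _ _ _ _ m _ hm hpm hn γ hγ
  obtain ⟨n, hn⟩ := hn
  classical
  have hfd : FiniteDimensional k E :=
    Module.finite_of_finrank_pos (by rw [hn]; exact pow_pos hp.pos n)
  obtain ⟨σ, hσ⟩ := IsCyclic.exists_generator (α := E ≃ₐ[k] E)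
  have hN : orderOf σ = p ^ n := by
    rw [orderOf_eq_card_of_forall_mem_zpowers hσ, IsGalois.card_aut_eq_finrank, hn]
  have hodd : Odd (orderOf σ) := by
    rw [hN]
    exact (hp.odd_of_ne_two hp2).pow
  have hm0 : m ≠ 0 := hm.ne_zero
  haveI : NeZero m := ⟨hm0⟩
  -- step 1: `γ` is a cyclic class
  obtain ⟨x, hx, hxγ⟩ := H37.leafCycSurj ℤ (E ≃ₐ[k] E) (Rep.ofAlgebraAutOnUnits k E) σ hσ γ
  obtain ⟨a₀, rfl⟩ := H37.exists_unitOfBase_of_invariant k E x hx
  -- step 2: local norms above `m`, weak approximation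
  have hloc : ∀ (q : ℕ) [Fact q.Prime], q ∣ m → ∀ τ' : E →+* PadicAlgCl q,
      ∃ β : locExt q k τ', Algebra.norm (locBase q k τ') β =
        locEmb q (τ'.comp (algebraMap k E)) (a₀ : k) := by
    intro q _ hqm τ'
    refine hLN k E σ hσ q τ' a₀ ?_
    rw [hxγ]
    exact linvAt_eq_zero_of_linv k E q τ' γ fun v hv => hγ v (by rw [hv]; exact hqm)
  obtain ⟨b, hb⟩ := hWA k E m hm0 a₀ hloc
  set a : kˣ := a₀ / Units.map (Algebra.norm k : E →* k) b with ha
  have hγa : cycClass (Rep.ofAlgebraAutOnUnits k E) σ (H29.unitOfBase k E a) = γ := by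
    rw [← hxγ]
    exact cycClass_unitOfBase_div_norm k E σ hσ a₀ b
  have hunit : ∀ (q : ℕ) [Fact q.Prime], q ∣ m → ∀ τ : k →+* PadicAlgCl q,
      ‖τ (a : k) - 1‖ < 1 := by
    intro q _ hqm τ
    have h1 := hb q hqm τ
    have h2 : (a : k) = (a₀ : k) / Algebra.norm k (b : E) := by
      rw [ha, Units.val_div_eq_div_val]
      rfl
    rw [h2]
    exact h1
  -- the exponents and the local factors
  set o : FinPlace k → ℤ := fun v => ord (v.1 : ℕ) (locEmb (v.1 : ℕ) v.emb (a : k)) with ho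
  set c : FinPlace k → (ZMod m)ˣ := fun v => H5.uMod m (resCard (v.1 : ℕ) v.field) with hc
  have hunit0 : ∀ v : FinPlace k, ‖v.emb (a : k)‖ = 1 → o v = 0 := fun v h =>
    ord_locEmb_eq_zero k (v.1 : ℕ) v.emb (a : k) h
  have hmo : ∀ v : FinPlace k, o v ≠ 0 → ¬ ((v.1 : ℕ) ∣ m) := by
    intro v hv hvm
    exact hv (hunit0 v (H5.norm_eq_one_of_sub_one_lt (v.1 : ℕ) (hunit (v.1 : ℕ) hvm v.emb)))
  have hofin : (Function.support o).Finite := by
    refine (finiteNonunitStatement_holds k a).subset fun v hv => ?_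
    intro hmem
    exact hv (hunit0 v hmem)
  -- the cyclotomic character
  obtain ⟨ζ, hζ⟩ := IsCyclotomicExtension.exists_isPrimitiveRoot k F (Set.mem_singleton m) hm0
  set χ : (F ≃ₐ[k] F) →* (ZMod m)ˣ := hζ.autToPow k with hχ
  have hχinj : Function.Injective χ := IsPrimitiveRoot.autToPow_injective k hζ
  -- the local data
  have key : ∀ v : FinPlace k, ∃ (i : ℕ) (s : F ≃ₐ[k] F),
      (¬ ((v.1 : ℕ) ∣ m) → AlgEquiv.restrictNormalHom E s = σ ^ i ∧ χ s = c v) ∧
      (layerOf k E).linv v γ =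
        (((((i : ℤ) * o v : ℤ) : ℚ) / (orderOf σ : ℚ) : ℚ) : QZ) := by
    intro v
    by_cases hv : (v.1 : ℕ) ∣ m
    · refine ⟨0, 1, fun h => absurd hv h, ?_⟩
      rw [hγ v hv]
      simp
    · obtain ⟨hunr, φ, s, hφ, hsζ, hsres⟩ := hFr k E F m (v.1 : ℕ) hv (v.ext E)
      obtain ⟨i, hi⟩ : ∃ i : ℕ, σ ^ i = locGalToGlobal (v.1 : ℕ) k (v.ext E) φ := by
        have h1 := hσ (locGalToGlobal (v.1 : ℕ) k (v.ext E) φ)
        rw [← mem_powers_iff_mem_zpowers] at h1
        exact h1
      refine ⟨i, s, fun _ => ⟨hsres.trans hi.symm, ?_⟩, ?_⟩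
      · -- the character of `s`
        have h1 : ζ ^ ((χ s : (ZMod m)ˣ) : ZMod m).val =
            ζ ^ resCard (v.1 : ℕ) (locBase (v.1 : ℕ) k (v.ext E)) := by
          rw [← hsζ ζ hζ.pow_eq_one]
          exact hζ.autToPow_spec k s
        have hζ0 : ζ ≠ 0 := hζ.ne_zero hm0
        have h2 : ζ ^ ((((χ s : (ZMod m)ˣ) : ZMod m).val : ℤ) -
            (resCard (v.1 : ℕ) (locBase (v.1 : ℕ) k (v.ext E)) : ℤ)) = 1 := by
          rw [zpow_sub₀ hζ0, zpow_natCast, zpow_natCast, h1, div_self (pow_ne_zero _ hζ0)]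
        have h2' := (hζ.zpow_eq_one_iff_dvd _).1 h2
        have h3 : ((χ s : (ZMod m)ˣ) : ZMod m) =
            ((resCard (v.1 : ℕ) (locBase (v.1 : ℕ) k (v.ext E)) : ℕ) : ZMod m) := by
          have h5 := (ZMod.intCast_zmod_eq_zero_iff_dvd _ m).2 h2'
          push_cast at h5
          rw [ZMod.natCast_zmod_val] at h5
          exact sub_eq_zero.1 h5
        have h4 : resCard (v.1 : ℕ) (locBase (v.1 : ℕ) k (v.ext E)) =
            resCard (v.1 : ℕ) v.field :=
          congrArg (fun τ : k →+* PadicAlgCl (v.1 : ℕ) =>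
            resCard (v.1 : ℕ) (locField (v.1 : ℕ) τ)) (v.ext_comp E)
        rw [h4] at h3
        have hcop : Nat.Coprime (resCard (v.1 : ℕ) v.field) m :=
          (ZMod.isUnit_iff_coprime _ _).1 (h3 ▸ Units.isUnit _)
        apply Units.ext
        rw [h3]
        exact (H5.uMod_coe hcop).symm
      · have h1 := hUF k E σ hσ (v.1 : ℕ) (v.ext E) hunr φ hφ i hi.symm a
        have h2 : ord (v.1 : ℕ) (locEmb (v.1 : ℕ) ((v.ext E).comp (algebraMap k E)) (a : k)) =
            o v :=
          congrArg (fun τ : k →+* PadicAlgCl (v.1 : ℕ) =>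
            ord (v.1 : ℕ) (locEmb (v.1 : ℕ) τ (a : k))) (v.ext_comp E)
        rw [h2, hγa] at h1
        exact h1
  choose i s hs hlinv using key
  have hprod : (∏ᶠ v : FinPlace k, c v ^ o v) ^ 2 = 1 := H5.prodFormula_sq k m hm a hunit
  have hfinal := qz_finsum_eq_zero σ hodd (AlgEquiv.restrictNormalHom E) χ hχinj o hofin i s c
    (fun v hv => (hs v (hmo v hv)).1) (fun v hv => (hs v (hmo v hv)).2) hprod
  exact (finsum_congr hlinv).trans hfinal

end Fermat.Agent.S55.H6
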