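/-
Program C (S55), package C8, leaf (CYCREC) (helper6): `H29.CycloRecStatement p`, VERBATIM and
unconditional.

`H6.cycloRec_of` (the assembly, `RecCyclo.lean`) applied to the four landed leaves of
`RecCycloSpec.lean`:
* (R-LOCNORM) `H85.locNormStatement` (helper85),
* (R-WA)      `H16.weakApproxNormStatement` (helper16),
* (R-FROB)    `H5.frobCycloStatement` (helper5),
* (R-UNR)     `H5.unrFormulaStatement` (helper5, helper18).
-/
import Fermat.Agent.S55.H6.RecCyclo
import Fermat.Agent.S55.H85.RecLocNorm
import Fermat.Agent.S55.H16.RecWA
import Fermat.Agent.S55.H5.RecCycloLeaves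

set_option autoImplicit false

namespace Fermat.Agent.S55.H6

/-- **Leaf (CYCREC) of C8** : reciprocity in cyclic cyclotomic layers, verbatim. -/
theorem cycloRecStatement (p : ℕ) : H29.CycloRecStatement p :=
  cycloRec_of H85.locNormStatement H16.weakApproxNormStatement H5.frobCycloStatement
    H5.unrFormulaStatement p

end Fermat.Agent.S55.H6
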