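import Fermat.Agent.S55.H43.RGlue

/-!
# S55 (Program C, Route R), package C9a: the leaf GO-UP

For a level field `L` and a class `y ∈ H¹_c(G_S, F_L')` (`F_L = 𝔽_p[G_ℚ / G_L]`, `F_L' = D p F_L`)
there is a larger level field `L'` such that the image of `y` in `H¹_c(G_S, F_{L'}')` under the
transpose of the projection `F_{L'} ↠ F_L` lies in `loc0`.

Proof.  Let `(n, m)` represent `y`; `n` is constant on the cosets of the fixing subgroup of a level
`F` unramified outside `S`.  Take `L'` Galois, unramified outside `S`, containing `L` and `F`.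
Then `c (γ G_{L'}) := n(γ)(δ_{γ G_L})` is well defined, and the cocycle identity for `n` at
`g * (g⁻¹ γ) = γ`, evaluated at `δ_{γ G_L}`, says that the pushed-forward cocycle is the coboundary
of the functional `m' (δ_{x'}) = - c x'`.  By `H43.ker_toH1` the class lies in `loc0`.

Main results: `goUp_core`, and `goUp : H87.GoUp (H43.rPackage S pairing)` for every pairing which
is natural in the coefficient module (the hypothesis `hnat` of `H43.rFunctor`).
-/

set_option autoImplicit false

open CategoryTheory Module groupCohomology ExtCitation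

noncomputable section

namespace Fermat.Agent.S55.H6

open Fermat.Agent.S55.H70 Fermat.Agent.S55.H12 Fermat.Agent.S55.H87 Fermat.Agent.S55.H43

section Proj

variable {L L' : IntermediateField ℚ (AlgebraicClosure ℚ)}

/-- The projection `G_ℚ / G_{L'} → G_ℚ / G_L` for `L ≤ L'`. -/
def cosetProj (h : L ≤ L') : GQ ⧸ L'.fixingSubgroup → GQ ⧸ L.fixingSubgroup :=
  Subgroup.quotientMapOfLE (IntermediateField.fixingSubgroup_antitone h)

theorem cosetProj_mk (h : L ≤ L') (g : GQ) :
    cosetProj h (g : GQ ⧸ L'.fixingSubgroup) = (g : GQ ⧸ L.fixingSubgroup) := rfl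

theorem cosetProj_smul (h : L ≤ L') (g : GQ) (x : GQ ⧸ L'.fixingSubgroup) :
    cosetProj h (g • x) = g • cosetProj h x := by
  induction x using QuotientGroup.induction_on with
  | H a => rfl

variable (p : ℕ) [Fact p.Prime]

/-- The projection `F_{L'} ↠ F_L` of base modules, for `L ≤ L'`. -/
def baseProj (h : L ≤ L') : baseRep p L' ⟶ baseRep p L :=
  Rep.ofHom
    { toLinearMap := MonoidAlgebra.mapDomainLinearMap (ZMod p) (ZMod p) (cosetProj h)
      isIntertwining' := fun g => by
        refine MonoidAlgebra.lhom_ext' fun x => LinearMap.ext fun r => ?_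
        show MonoidAlgebra.mapDomainLinearMap (ZMod p) (ZMod p) (cosetProj h)
            (Representation.ofMulAction (ZMod p) GQ (GQ ⧸ L'.fixingSubgroup) g
              (MonoidAlgebra.single x r)) =
          Representation.ofMulAction (ZMod p) GQ (GQ ⧸ L.fixingSubgroup) g
            (MonoidAlgebra.mapDomainLinearMap (ZMod p) (ZMod p) (cosetProj h)
              (MonoidAlgebra.single x r))
        rw [Representation.ofMulAction_single, MonoidAlgebra.mapDomainLinearMap_single,
          MonoidAlgebra.mapDomainLinearMap_single, Representation.ofMulAction_single,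
          cosetProj_smul] }

theorem baseProj_single (h : L ≤ L') (x : GQ ⧸ L'.fixingSubgroup) (r : ZMod p) :
    (baseProj p h).hom (MonoidAlgebra.single x r : MonoidAlgebra (ZMod p) (GQ ⧸ L'.fixingSubgroup))
      = (MonoidAlgebra.single (cosetProj h x) r :
          MonoidAlgebra (ZMod p) (GQ ⧸ L.fixingSubgroup)) :=
  MonoidAlgebra.mapDomainLinearMap_single (R := ZMod p) (S := ZMod p) (cosetProj h) r x

/-- The transpose of the projection `F_{L'} ↠ F_L` is injective. -/
theorem dualHom_baseProj_injective (h : L ≤ L') :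
    Function.Injective (dualHom p (baseProj p h)).hom := by
  intro f₁ f₂ hf
  have key : ∀ (x : GQ ⧸ L.fixingSubgroup) (r : ZMod p),
      (f₁ : Module.Dual (ZMod p) (MonoidAlgebra (ZMod p) (GQ ⧸ L.fixingSubgroup)))
          (MonoidAlgebra.single x r) =
        (f₂ : Module.Dual (ZMod p) (MonoidAlgebra (ZMod p) (GQ ⧸ L.fixingSubgroup)))
          (MonoidAlgebra.single x r) := by
    intro x r
    induction x using QuotientGroup.induction_on with
    | H a =>
      have h1 := congrArg (fun F : D p (baseRep p L') =>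
        (F : Module.Dual (ZMod p) (MonoidAlgebra (ZMod p) (GQ ⧸ L'.fixingSubgroup)))
          (MonoidAlgebra.single (a : GQ ⧸ L'.fixingSubgroup) r)) hf
      simp only [] at h1
      rw [dualHom_apply, dualHom_apply, baseProj_single] at h1
      exact h1
  show (f₁ : Module.Dual (ZMod p) (MonoidAlgebra (ZMod p) (GQ ⧸ L.fixingSubgroup))) = f₂
  exact MonoidAlgebra.lhom_ext' fun x => LinearMap.ext fun r => key x r

end Proj

variable {p : ℕ} [Fact p.Prime] (S : Finset Nat.Primes)

/-- **GO-UP, core.**  Every class of `H¹_c(G_S, F_L')` lands in `loc0` over a larger level field. -/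
theorem goUp_core (L : IntermediateField ℚ (AlgebraicClosure ℚ)) (hL : IsLevelField p S L)
    (y : Hc1 S (D p (baseRep p L))) :
    ∃ (L' : IntermediateField ℚ (AlgebraicClosure ℚ)) (h : L ≤ L'), IsLevelField p S L' ∧
      Hc1Map S (dualHom p (baseProj p h)) y ∈ loc0 S (D p (baseRep p L')) := by
  obtain ⟨z, rfl⟩ := Hc1π_surjective S _ y
  obtain ⟨hcoc, ⟨F, hF, hconst⟩, -⟩ := z.2
  obtain ⟨L', hL'ur, hle, -, hL'gal⟩ := exists_normal_level (hL.1.sup hF)
  have hLL' : L ≤ L' := le_sup_left.trans hle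
  have hFL' : F ≤ L' := le_sup_right.trans hle
  refine ⟨L', hLL', ⟨hL'ur, hL'gal, fun ζ hζ => hLL' (hL.2.2 ζ hζ)⟩, ?_⟩
  rw [← ker_toH1, LinearMap.mem_ker, Hc1Map_π, toH1_π, H1π_eq_zero_iff]
  -- the cocycle
  let n : GQ → Module.Dual (ZMod p) (MonoidAlgebra (ZMod p) (GQ ⧸ L.fixingSubgroup)) :=
    (z : (GQ → D p (baseRep p L)) × (↥S → D p (baseRep p L))).1
  have hcoc' : ∀ g h : GQ, n (g * h) = (D p (baseRep p L)).ρ g (n h) + n g :=
    (mem_cocycles₁_iff _).1 hcoc
  -- the function `c` on `G_ℚ`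
  let ct : GQ → ZMod p := fun γ => n γ (MonoidAlgebra.single (γ : GQ ⧸ L.fixingSubgroup) 1)
  have hct : ∀ γ s : GQ, s ∈ L'.fixingSubgroup → ct (γ * s) = ct γ := by
    intro γ s hs
    have hsF : s ∈ F.fixingSubgroup := IntermediateField.fixingSubgroup_antitone hFL' hs
    have hsL : s ∈ L.fixingSubgroup := IntermediateField.fixingSubgroup_antitone hLL' hs
    have e1 : n (γ * s) = n γ := hconst γ s hsF
    have e2 : ((γ * s : GQ) : GQ ⧸ L.fixingSubgroup) = (γ : GQ ⧸ L.fixingSubgroup) := by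
      rw [QuotientGroup.eq]
      have : (γ * s)⁻¹ * γ = s⁻¹ := by group
      rw [this]
      exact L.fixingSubgroup.inv_mem hsL
    show n (γ * s) (MonoidAlgebra.single ((γ * s : GQ) : GQ ⧸ L.fixingSubgroup) 1) = _
    rw [e1, e2]
  let c : GQ ⧸ L'.fixingSubgroup → ZMod p := fun x => Quotient.liftOn' x ct (by
    intro a b hab
    rw [QuotientGroup.leftRel_apply] at hab
    have h1 := hct a (a⁻¹ * b) hab
    rw [mul_inv_cancel_left] at h1
    exact h1.symm)
  have hc_mk : ∀ γ : GQ, c (γ : GQ ⧸ L'.fixingSubgroup) = ct γ := fun γ => rfl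
  -- the functional
  let m' : Module.Dual (ZMod p) (MonoidAlgebra (ZMod p) (GQ ⧸ L'.fixingSubgroup)) :=
    -((Finsupp.linearCombination (ZMod p) c) ∘ₗ
      (MonoidAlgebra.coeffLinearEquiv (ZMod p)).toLinearMap)
  have hm' : ∀ (x : GQ ⧸ L'.fixingSubgroup) (r : ZMod p),
      m' (MonoidAlgebra.single x r) = -(r * c x) := by
    intro x r
    simp [m', Finsupp.linearCombination_single]
  -- the key identity
  have hkey : ∀ g γ : GQ, n g (MonoidAlgebra.single (γ : GQ ⧸ L.fixingSubgroup) 1) =
      ct γ - (cycloChar p g : ZMod p) * ct (g⁻¹ * γ) := by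
    intro g γ
    have h1 := hcoc' g (g⁻¹ * γ)
    rw [mul_inv_cancel_left] at h1
    have h3 : (baseRep p L).ρ g⁻¹ (MonoidAlgebra.single (γ : GQ ⧸ L.fixingSubgroup) 1) =
        MonoidAlgebra.single (((g⁻¹ * γ : GQ)) : GQ ⧸ L.fixingSubgroup) 1 :=
      Representation.ofMulAction_single (k := ZMod p) g⁻¹ (γ : GQ ⧸ L.fixingSubgroup) 1
    have h2 : n γ (MonoidAlgebra.single (γ : GQ ⧸ L.fixingSubgroup) 1) =
        (cycloChar p g : ZMod p) * n (g⁻¹ * γ)
          ((baseRep p L).ρ g⁻¹ (MonoidAlgebra.single (γ : GQ ⧸ L.fixingSubgroup) 1)) +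
        n g (MonoidAlgebra.single (γ : GQ ⧸ L.fixingSubgroup) 1) :=
      congrArg (fun f : Module.Dual (ZMod p)
        (MonoidAlgebra (ZMod p) (GQ ⧸ L.fixingSubgroup)) =>
          f (MonoidAlgebra.single (γ : GQ ⧸ L.fixingSubgroup) 1)) h1
    rw [h3] at h2
    show n g _ = n γ _ - _ * n (g⁻¹ * γ) _
    rw [h2]
    ring
  refine ⟨(m' : D p (baseRep p L')), ?_⟩
  funext g
  show (D p (baseRep p L')).ρ g m' - m' = (dualHom p (baseProj p hLL')).hom (n g)
  refine MonoidAlgebra.lhom_ext' fun x => LinearMap.ext fun r => ?_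
  induction x using QuotientGroup.induction_on with
  | H γ =>
    show ((D p (baseRep p L')).ρ g m' - m')
        (MonoidAlgebra.single (γ : GQ ⧸ L'.fixingSubgroup) r) =
      ((dualHom p (baseProj p hLL')).hom (n g) :
        Module.Dual (ZMod p) (MonoidAlgebra (ZMod p) (GQ ⧸ L'.fixingSubgroup)))
        (MonoidAlgebra.single (γ : GQ ⧸ L'.fixingSubgroup) r)
    have h3 : (baseRep p L').ρ g⁻¹ (MonoidAlgebra.single (γ : GQ ⧸ L'.fixingSubgroup) r) =
        MonoidAlgebra.single (((g⁻¹ * γ : GQ)) : GQ ⧸ L'.fixingSubgroup) r :=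
      Representation.ofMulAction_single (k := ZMod p) g⁻¹ (γ : GQ ⧸ L'.fixingSubgroup) r
    have h4 : (MonoidAlgebra.single (γ : GQ ⧸ L.fixingSubgroup) r :
        MonoidAlgebra (ZMod p) (GQ ⧸ L.fixingSubgroup)) =
        r • MonoidAlgebra.single (γ : GQ ⧸ L.fixingSubgroup) 1 := by
      rw [MonoidAlgebra.smul_single, smul_eq_mul, mul_one]
    have e1 : ((D p (baseRep p L')).ρ g m' - m')
        (MonoidAlgebra.single (γ : GQ ⧸ L'.fixingSubgroup) r) =
        (cycloChar p g : ZMod p) *
          m' (MonoidAlgebra.single (((g⁻¹ * γ : GQ)) : GQ ⧸ L'.fixingSubgroup) r) -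
        m' (MonoidAlgebra.single (γ : GQ ⧸ L'.fixingSubgroup) r) := by
      rw [← h3]
      rfl
    have e2 : ((dualHom p (baseProj p hLL')).hom (n g) :
        Module.Dual (ZMod p) (MonoidAlgebra (ZMod p) (GQ ⧸ L'.fixingSubgroup)))
        (MonoidAlgebra.single (γ : GQ ⧸ L'.fixingSubgroup) r) =
        n g (MonoidAlgebra.single (γ : GQ ⧸ L.fixingSubgroup) r) := by
      show n g ((baseProj p hLL').hom (MonoidAlgebra.single (γ : GQ ⧸ L'.fixingSubgroup) r)) = _
      rw [baseProj_single, cosetProj_mk]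
    rw [e1, e2, hm', hm', hc_mk, hc_mk, h4, map_smul, hkey g γ, smul_eq_mul]
    ring

/-- **GO-UP** for the concrete Route R package, for every pairing which is natural in the
coefficient module. -/
theorem goUp (hpS : pPrime p ∈ S)
    (pairing : ∀ M : Rep.{0, 0, 0} (ZMod p) GQ,
      continuousH2S S M →ₗ[ZMod p] Hc1 S (D p M) →ₗ[ZMod p] ZMod p)
    (hnat : ∀ {X Y : Rep.{0, 0, 0} (ZMod p) GQ} (f : X ⟶ Y) (x : continuousH2S S X)
      (y : Hc1 S (D p Y)),
      pairing Y (H2SMap S f x) y = pairing X x (Hc1Map S (dualHom p f) y)) :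
    GoUp (rPackage S pairing) := by
  intro L hL y
  obtain ⟨L', h, hL', hmem⟩ := goUp_core S L hL y
  exact ⟨L', hL', H2SMap S (baseProj p h), Hc1Map S (dualHom p (baseProj p h)),
    Hc1Map_injective S ⟨pPrime p, hpS⟩ _ (dualHom_baseProj_injective p h),
    fun x' y' => hnat (baseProj p h) x' y', hmem⟩

end Fermat.Agent.S55.H6
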